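/-
S55 (helper61), seam (L-c) of DISPATCH-19: the last glue of plug (P1).

`CDArith63.GlobalForm.formation_res` (helper63) ends in the binder `hES` of
`CDArith63.Global.h3Vanishes_global`; `CD3.globalRightExact_of_base` (helper3) starts from
`CD3.GlobalH3Base p S`.  This file names `hES` as a `Prop` (`HES p S`) and closes the gap:

  `HES p S → CD3.GlobalH3Base p S → Contract34.GlobalRightExact p S`  and
  `HES p S → R3Wire52.CDPlug (ZMod p) (globalLevels S)`.

No adapter between level structures is needed: both sides live on `↥V` with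
`restrictLevels (globalLevels S) V hV`.
-/
import Fermat.Agent.S55.CD3.W59
import Fermat.Agent.S55.CDArith63.Global

set_option autoImplicit false

open Fermat.Agent.S55.Profin15 Fermat.Agent.S55.CD3
open Fermat.Agent.S55.ESRep20
open ExtCitation
open Fermat.Agent.Lib.FrobeniusExists (Qb GQ)

namespace Fermat.Agent.S55.Adapt61.P1Glue

variable (p : ℕ) [Fact p.Prime] (S : Finset Nat.Primes)

/-- **The one arithmetic input of (P1), on `E_S`**: for every open subgroup `V` of `G_ℚ`
(w.r.t. the `S`-levels) fixing `μ_p`, level `H³(V, E_S)` kills `p`-torsion valued cocycles and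
level `H²(V, E_S)` is `p`-divisible.  This is literally the binder `hES` of
`CDArith63.Global.h3Vanishes_global`, i.e. the conclusion of
`CDArith63.GlobalForm.formation_res` for `E = ESRep S`. -/
def HES : Prop :=
  ∀ (V : Subgroup GQ) (hV : IsOpenSub (globalLevels S) V), CDArith63.Global.MuTriv p V →
    CDArith63.H3TorsVan (restrictLevels (globalLevels S) V hV) p (resSub (ESRep S).ρ V) ∧
    CDArith63.H2DivBy (restrictLevels (globalLevels S) V hV) p (resSub (ESRep S).ρ V)

variable {p S}

/-- `HES p S ⇒ CD3.GlobalH3Base p S` (Kummer step of helper63 over each `V`). -/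
theorem globalH3Base_of_hES (hpS : pPrime p ∈ S) (hES : HES p S) : GlobalH3Base p S :=
  fun V hV hmu =>
    CDArith63.Global.hbase_of_ES hpS V hV hmu (hES V hV hmu).1 (hES V hV hmu).2

/-- **(P1) literally from `HES`.** -/
theorem globalRightExact_of_hES (hpS : pPrime p ∈ S) (hES : HES p S) :
    Contract34.GlobalRightExact p S :=
  globalRightExact_of_base hpS (globalH3Base_of_hES hpS hES)

/-- the `cd ≤ 2` plug of the W59 wiring from `HES`. -/
theorem cdPlug_of_hES (hpS : pPrime p ∈ S) (hES : HES p S) :
    R3Wire52.CDPlug (ZMod p) (globalLevels S) :=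
  cdPlug_of_base hpS (globalH3Base_of_hES hpS hES)

end Fermat.Agent.S55.Adapt61.P1Glue
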